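/-
P-CFT / LOCAL row 837 (H3-KUM, helper10): `h3Kummer : Fermat.Agent.H78.CFT.H3KummerStatement`.

Kummer boundary argument: if `H³_lvl(G_E, ℚ̄ˣ)[p] = 0` and `Br(E)` is `p`-divisible, then
`H³(G_E, ZMod p) = 0` (`E` arbitrary containing `ζ_p`).
-/
import Mathlib
import Fermat.Agent.H78.CFT.LocalInvRows
import Fermat.Agent.H57.CFT.H90Lvl
import Fermat.Agent.H75.Inf2Finite

set_option autoImplicit false
set_option linter.style.haveILetI false
set_option synthInstance.maxHeartbeats 400000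

namespace Fermat.Agent.H10.CFT

open Fermat.Agent.H13.Cft Fermat.Agent.H78.CFT IntermediateField

noncomputable section

/-- A level function `G_E → ℚ̄ˣ` has a level that fixes all its values. -/
theorem h3k_exists_lvl_fix (E : IntermediateField ℚ Qb) (x : E.fixingSubgroup → Qbˣ)
    (hx : IsLvlFun₁ (lvlE E) x) :
    ∃ N ∈ (lvlE E).sets, (∀ g, ∀ n ∈ N, x (g * n) = x g) ∧
      ∀ g, ∀ n ∈ N, actU ((n : E.fixingSubgroup) : Qb ≃ₐ[ℚ] Qb) (x g) = x g := by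
  classical
  obtain ⟨N, hN, hxN⟩ := hx
  haveI : N.FiniteIndex := (lvlE E).finiteIndex N hN
  have hfin : (Set.range (fun q : E.fixingSubgroup × E.fixingSubgroup => x q.1)).Finite :=
    Fermat.Agent.H75.Inf2.finite_range_of_invariant N _ (fun g _ n hn _ _ => hxN g n hn)
  let T : Set Qb := (fun u : Qbˣ => (u : Qb)) ''
    Set.range (fun q : E.fixingSubgroup × E.fixingSubgroup => x q.1)
  have hT : T.Finite := hfin.image _
  haveI : Finite T := hT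
  haveI hgal := Fermat.Agent.H57.CFT.isGalois_qb
  haveI : FiniteDimensional ℚ (IntermediateField.adjoin ℚ T) :=
    IntermediateField.finiteDimensional_adjoin (fun y _ => hgal.to_normal.isIntegral y)
  obtain ⟨N₂, hN₂, hN₂le⟩ :=
    Fermat.Agent.H57.CFT.exists_lvlE_le E (IntermediateField.adjoin ℚ T)
  obtain ⟨N₃, hN₃, hle⟩ := (lvlE E).directed N hN N₂ hN₂
  refine ⟨N₃, hN₃, fun g n hn => hxN g n (hle hn).1, fun g n hn => ?_⟩
  have h1 : (n : Qb ≃ₐ[ℚ] Qb) ∈ (IntermediateField.adjoin ℚ T).fixingSubgroup :=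
    hN₂le ((hle hn).2)
  ext
  rw [coe_actU]
  exact (IntermediateField.mem_fixingSubgroup_iff _ _).mp h1 _
    (IntermediateField.subset_adjoin ℚ T ⟨x g, ⟨(g, 1), rfl⟩, rfl⟩)

theorem h3k_grp1 {M : Type} [CommGroup M] (A B C D F G : M) :
    A * B / C * (C * D / F) = A * G / F * (B * D / G) := by
  rw [div_mul_div_comm, div_mul_div_comm, div_eq_div_iff_mul_eq_mul]
  simp only [mul_comm, mul_left_comm]

/-- `d ∘ d = 1` for multiplicative cochains of `G_E`. -/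
theorem h3k_dd (E : IntermediateField ℚ Qb) (x : E.fixingSubgroup → Qbˣ)
    (g h j : E.fixingSubgroup) :
    actU (g : Qb ≃ₐ[ℚ] Qb) (mulD₁E E x (h, j)) * mulD₁E E x (g, h * j) =
      mulD₁E E x (g * h, j) * mulD₁E E x (g, h) := by
  have e1 : actU ((g * h : E.fixingSubgroup) : Qb ≃ₐ[ℚ] Qb) (x j) =
      actU (g : Qb ≃ₐ[ℚ] Qb) (actU (h : Qb ≃ₐ[ℚ] Qb) (x j)) := by
    rw [Subgroup.coe_mul, Fermat.Agent.H57.CFT.actU_mul]
  have e2 : x (g * h * j) = x (g * (h * j)) := by rw [mul_assoc]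
  simp only [mulD₁E, map_div, map_mul]
  rw [e1, e2]
  exact h3k_grp1 _ _ _ _ _ _

/-- Level invariance of the coboundary of a level 1-cochain whose values are fixed. -/
theorem h3k_d_lvl (E : IntermediateField ℚ Qb) (x : E.fixingSubgroup → Qbˣ)
    (N : Subgroup E.fixingSubgroup) (hNn : N.Normal)
    (h1 : ∀ g, ∀ n ∈ N, x (g * n) = x g)
    (h2 : ∀ g, ∀ n ∈ N, actU ((n : E.fixingSubgroup) : Qb ≃ₐ[ℚ] Qb) (x g) = x g)
    (g h : E.fixingSubgroup) (n : E.fixingSubgroup) (hn : n ∈ N) (m : E.fixingSubgroup)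
    (hm : m ∈ N) : mulD₁E E x (g * n, h * m) = mulD₁E E x (g, h) := by
  simp only [mulD₁E]
  have e1 : g * n * (h * m) = g * h * (h⁻¹ * n * h * m) := by group
  have e2 : h⁻¹ * n * h * m ∈ N := by
    apply N.mul_mem _ hm
    have := hNn.conj_mem n hn h⁻¹
    simpa using this
  rw [e1, h1 (g * h) _ e2, h1 h m hm, h1 g n hn, Subgroup.coe_mul,
    Fermat.Agent.H57.CFT.actU_mul, h2 h n hn]

/-- **[H3-KUM]** (row 837). -/
theorem h3Kummer : H3KummerStatement := by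
  classical
  intro p _ E ζ hζ hζE hyp1 hyp2 c hlvl hcoc
  have hp : p.Prime := Fact.out
  haveI : NeZero p := ⟨hp.ne_zero⟩
  have hζu : IsPrimitiveRoot ζ p := IsPrimitiveRoot.coe_units_iff.mp hζ
  have hζp : ζ ^ p = 1 := hζu.pow_eq_one
  have hgζ : ∀ g : E.fixingSubgroup, actU (g : Qb ≃ₐ[ℚ] Qb) ζ = ζ := by
    intro g
    ext
    rw [coe_actU]
    exact (IntermediateField.mem_fixingSubgroup_iff E _).mp g.2 _ hζE
  have hadd : ∀ x y : ZMod p, ζ ^ (x + y).val = ζ ^ x.val * ζ ^ y.val := by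
    intro x y
    rw [ZMod.val_add, ← pow_add]
    exact (pow_eq_pow_mod _ hζp).symm
  -- Step 1: `ζ ^ c` is a multiplicative level 3-cocycle of exponent `p`
  have hC1 : IsLvlFun₃ (lvlE E) (zetaPow ζ c) := by
    obtain ⟨N, hN, h⟩ := hlvl
    exact ⟨N, hN, fun g h' j n hn m hm l hl => by
      show ζ ^ (c (g * n, h' * m, j * l)).val = ζ ^ (c (g, h', j)).val
      rw [h g h' j n hn m hm l hl]⟩
  have hC2 : IsMulCocycle₃E E (zetaPow ζ c) := by
    intro g h j k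
    show actU (g : Qb ≃ₐ[ℚ] Qb) (ζ ^ (c (h, j, k)).val) * ζ ^ (c (g, h * j, k)).val *
      ζ ^ (c (g, h, j)).val = ζ ^ (c (g * h, j, k)).val * ζ ^ (c (g, h, j * k)).val
    rw [map_pow, hgζ, ← hadd, ← hadd, ← hadd]
    have := hcoc g h j k
    have e : c (h, j, k) + c (g, h * j, k) + c (g, h, j) =
        c (g * h, j, k) + c (g, h, j * k) := by linear_combination this
    rw [e]
  have hC3 : ∀ x, zetaPow ζ c x ^ p = 1 := by
    intro x
    show (ζ ^ (c x).val) ^ p = 1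
    rw [← pow_mul, mul_comm, pow_mul, hζp, one_pow]
  obtain ⟨b, hblvl, hb⟩ := hyp1 _ hC1 hC2 hC3
  have hb' : ∀ g h j : E.fixingSubgroup,
      actU (g : Qb ≃ₐ[ℚ] Qb) (b (h, j)) * b (g, h * j) =
        ζ ^ (c (g, h, j)).val * (b (g * h, j) * b (g, h)) := by
    intro g h j
    have h1 : actU (g : Qb ≃ₐ[ℚ] Qb) (b (h, j)) * b (g, h * j) /
        (b (g * h, j) * b (g, h)) = ζ ^ (c (g, h, j)).val := hb (g, h, j)
    exact div_eq_iff_eq_mul.mp h1
  -- Step 3: `b ^ p` is a level 2-cocycle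
  have hB1 : IsLvlFun₂ (lvlE E) (fun x => b x ^ p) := by
    obtain ⟨N, hN, h⟩ := hblvl
    exact ⟨N, hN, fun g h' n hn m hm => by
      show b (g * n, h' * m) ^ p = b (g, h') ^ p
      rw [h g h' n hn m hm]⟩
  have hB2 : IsMulCocycle₂E E (fun x => b x ^ p) := by
    intro g h j
    show b (g * h, j) ^ p * b (g, h) ^ p =
      actU (g : Qb ≃ₐ[ℚ] Qb) (b (h, j) ^ p) * b (g, h * j) ^ p
    rw [map_pow, ← mul_pow (actU (g : Qb ≃ₐ[ℚ] Qb) (b (h, j))), hb' g h j, mul_pow, ← pow_mul,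
      mul_comm _ p, pow_mul, hζp, one_pow, one_mul, mul_pow]
  -- Step 4: divisibility of the Brauer class
  obtain ⟨c', hc'lvl, hc'coc, a, halvl, ha⟩ := hyp2 _ hB1 hB2
  have ha' : ∀ gh, mulD₁E E a gh = b gh ^ p / c' gh ^ p := ha
  -- Step 5: `p`-th roots
  have hroot : ∀ u : Qbˣ, ∃ v : Qbˣ, v ^ p = u := by
    intro u
    obtain ⟨y0, hy0⟩ := IsAlgClosed.exists_pow_nat_eq (u : Qb) hp.pos
    have hy0ne : y0 ≠ 0 := by
      rintro rfl
      rw [zero_pow hp.ne_zero] at hy0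
      exact u.ne_zero hy0.symm
    refine ⟨Units.mk0 y0 hy0ne, ?_⟩
    ext
    rw [Units.val_pow_eq_pow_val, Units.val_mk0, hy0]
  choose root hrt using hroot
  set a₁ : E.fixingSubgroup → Qbˣ := fun g => root (a g) with ha₁
  have ha₁p : ∀ g, a₁ g ^ p = a g := fun g => hrt (a g)
  have ha₁lvl : IsLvlFun₁ (lvlE E) a₁ := by
    obtain ⟨N, hN, h⟩ := halvl
    exact ⟨N, hN, fun g n hn => by
      show root (a (g * n)) = root (a g)
      rw [h g n hn]⟩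
  obtain ⟨N₁, hN₁, ha₁N, ha₁fix⟩ := h3k_exists_lvl_fix E a₁ ha₁lvl
  have hXp : ∀ gh, mulD₁E E a₁ gh ^ p = b gh ^ p / c' gh ^ p := by
    intro gh
    rw [← ha' gh]
    simp only [mulD₁E, div_pow, mul_pow, ← map_pow, ha₁p]
  -- Step 6: the `μ_p`-valued cochain
  have hb2p : ∀ x, (b x / (c' x * mulD₁E E a₁ x)) ^ p = 1 := by
    intro x
    rw [div_pow, mul_pow, hXp, mul_div_cancel, div_self']
  have hex : ∀ x, ∃ i < p, ζ ^ i = b x / (c' x * mulD₁E E a₁ x) := by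
    intro x
    have h1 : ((b x / (c' x * mulD₁E E a₁ x) : Qbˣ) : Qb) ^ p = 1 := by
      rw [← Units.val_pow_eq_pow_val, hb2p x, Units.val_one]
    obtain ⟨j, hj, hj'⟩ := hζ.eq_pow_of_pow_eq_one h1
    refine ⟨j, hj, ?_⟩
    ext
    rw [Units.val_pow_eq_pow_val, hj']
  choose e he heq using hex
  have hbe : ∀ x, b x = ζ ^ e x * (c' x * mulD₁E E a₁ x) := by
    intro x
    rw [heq x, div_mul_cancel]
  -- a common level
  obtain ⟨Nb, hNb, hbN⟩ := hblvl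
  obtain ⟨Nc, hNc, hcN⟩ := hc'lvl
  obtain ⟨N₂, hN₂, hle₂⟩ := (lvlE E).directed Nb hNb Nc hNc
  obtain ⟨N₃, hN₃, hle₃⟩ := (lvlE E).directed N₂ hN₂ N₁ hN₁
  have hN₁n : N₁.Normal := (lvlE E).normal N₁ hN₁
  have heN : ∀ g h, ∀ n ∈ N₃, ∀ m ∈ N₃, e (g * n, h * m) = e (g, h) := by
    intro g h n hn m hm
    refine hζu.pow_inj (he _) (he _) ?_
    rw [heq, heq, hbN g h n (hle₂ (hle₃ hn).1).1 m (hle₂ (hle₃ hm).1).1,
      hcN g h n (hle₂ (hle₃ hn).1).2 m (hle₂ (hle₃ hm).1).2,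
      h3k_d_lvl E a₁ N₁ hN₁n ha₁N ha₁fix g h n (hle₃ hn).2 m (hle₃ hm).2]
  refine ⟨fun x => (e x : ZMod p), ⟨N₃, hN₃, fun g h n hn m hm => ?_⟩, fun g h j => ?_⟩
  · show ((e (g * n, h * m) : ℕ) : ZMod p) = (e (g, h) : ZMod p)
    rw [heN g h n hn m hm]
  · have h1 := hb' g h j
    have hdd := h3k_dd E a₁ g h j
    have hcc := hc'coc g h j
    rw [hbe (h, j), hbe (g, h * j), hbe (g * h, j), hbe (g, h)] at h1
    simp only [map_mul, map_pow, hgζ] at h1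
    have h2 : ζ ^ e (h, j) * ζ ^ e (g, h * j) *
        ((actU (g : Qb ≃ₐ[ℚ] Qb) (c' (h, j)) * c' (g, h * j)) *
          (actU (g : Qb ≃ₐ[ℚ] Qb) (mulD₁E E a₁ (h, j)) * mulD₁E E a₁ (g, h * j))) =
        ζ ^ (c (g, h, j)).val * (ζ ^ e (g * h, j) * ζ ^ e (g, h)) *
        ((actU (g : Qb ≃ₐ[ℚ] Qb) (c' (h, j)) * c' (g, h * j)) *
          (actU (g : Qb ≃ₐ[ℚ] Qb) (mulD₁E E a₁ (h, j)) * mulD₁E E a₁ (g, h * j))) := by
      rw [hdd, ← hcc]
      calc ζ ^ e (h, j) * ζ ^ e (g, h * j) *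
            ((c' (g * h, j) * c' (g, h)) * (mulD₁E E a₁ (g * h, j) * mulD₁E E a₁ (g, h)))
          = ζ ^ e (h, j) * ζ ^ e (g, h * j) *
            ((actU (g : Qb ≃ₐ[ℚ] Qb) (c' (h, j)) * c' (g, h * j)) *
              (actU (g : Qb ≃ₐ[ℚ] Qb) (mulD₁E E a₁ (h, j)) * mulD₁E E a₁ (g, h * j))) := by
            rw [hdd, hcc]
        _ = ζ ^ e (h, j) * (actU (g : Qb ≃ₐ[ℚ] Qb) (c' (h, j)) *
              actU (g : Qb ≃ₐ[ℚ] Qb) (mulD₁E E a₁ (h, j))) *
            (ζ ^ e (g, h * j) * (c' (g, h * j) * mulD₁E E a₁ (g, h * j))) := by ac_rfl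
        _ = ζ ^ (c (g, h, j)).val * (ζ ^ e (g * h, j) * (c' (g * h, j) *
              mulD₁E E a₁ (g * h, j)) * (ζ ^ e (g, h) * (c' (g, h) * mulD₁E E a₁ (g, h)))) := h1
        _ = ζ ^ (c (g, h, j)).val * (ζ ^ e (g * h, j) * ζ ^ e (g, h)) *
            ((c' (g * h, j) * c' (g, h)) *
              (mulD₁E E a₁ (g * h, j) * mulD₁E E a₁ (g, h))) := by ac_rfl
    have h3 := mul_right_cancel h2
    rw [← pow_add, ← pow_add, ← pow_add, pow_eq_pow_iff_modEq, ← hζu.eq_orderOf] at h3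
    have h4 := (ZMod.natCast_eq_natCast_iff _ _ _).mpr h3
    push_cast at h4
    rw [ZMod.natCast_zmod_val] at h4
    show ((e (h, j) : ℕ) : ZMod p) - (e (g * h, j) : ZMod p) + (e (g, h * j) : ZMod p) -
      (e (g, h) : ZMod p) = c (g, h, j)
    linear_combination h4

end

end Fermat.Agent.H10.CFT
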